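/-
Project S36 (Carayol), cell [M2] leaf [THETA] = [V3-INST](ii) (helper8): the ABSTRACT
"Kronecker congruence + derivation" lemma (Mathlib only).  Prefix `s36th_`.

Setting: `B` a commutative ring (in the application the ring of Gauss-bounded Laurent series in
`L((X))`), `D` a derivation of `B` (`X d/dX`), `β` an endomorphism of `B` (`X ↦ X^q`) with
`D ∘ β = q • β ∘ D`, `res : B → K` a ring homomorphism to a field of characteristic `q`
(`k((X))`) compatible with derivations `D`, `Db` and endomorphisms `β`, `βb`, such that elements with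
nonzero residue are units.  `f ∈ B[Y]` monic of degree `≤ q + 1` (the modular polynomial: minimal
polynomial of `x₁ = β x` over the level-`N'` field), `f (β x) = 0`, `(β f)(x) = 0`, `βb x̄ = x̄ ^ q`,
`Db x̄ ≠ 0`.

Conclusions:
* `s36th_kron` (Kronecker): `f̄ = (Y - x̄^q)(Y^q - x̄)`;
* `s36th_abstract` : `(β f)'(x)` DIVIDES `q` in `B`.
-/
import Mathlib

set_option autoImplicit false

namespace Fermat.Agent.S36

open Polynomial

section PolyD

variable {A : Type*} [CommRing A]

/-- coefficientwise application of an additive map to a polynomial. -/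
noncomputable def s36th_polyD (D : A →+ A) (p : A[X]) : A[X] :=
  ∑ i ∈ p.support, monomial i (D (p.coeff i))

theorem s36th_polyD_coeff (D : A →+ A) (p : A[X]) (n : ℕ) :
    (s36th_polyD D p).coeff n = D (p.coeff n) := by
  unfold s36th_polyD
  rw [finsetSum_coeff]
  simp only [coeff_monomial]
  rw [Finset.sum_ite_eq' p.support n]
  split_ifs with h
  · rfl
  · rw [notMem_support_iff.1 h, map_zero]

theorem s36th_polyD_add (D : A →+ A) (p r : A[X]) :
    s36th_polyD D (p + r) = s36th_polyD D p + s36th_polyD D r := by
  ext n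
  rw [coeff_add, s36th_polyD_coeff, s36th_polyD_coeff, s36th_polyD_coeff, coeff_add, map_add]

theorem s36th_polyD_sub (D : A →+ A) (p r : A[X]) :
    s36th_polyD D (p - r) = s36th_polyD D p - s36th_polyD D r := by
  ext n
  rw [coeff_sub, s36th_polyD_coeff, s36th_polyD_coeff, s36th_polyD_coeff, coeff_sub, map_sub]

theorem s36th_polyD_monomial (D : A →+ A) (n : ℕ) (a : A) :
    s36th_polyD D (monomial n a) = monomial n (D a) := by
  ext i
  rw [s36th_polyD_coeff, coeff_monomial, coeff_monomial]
  split_ifs
  · rfl
  · exact map_zero D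

theorem s36th_polyD_C_mul_X_pow (D : A →+ A) (n : ℕ) (a : A) :
    s36th_polyD D (C a * X ^ n) = C (D a) * X ^ n := by
  rw [C_mul_X_pow_eq_monomial, C_mul_X_pow_eq_monomial, s36th_polyD_monomial]

theorem s36th_polyD_C (D : A →+ A) (a : A) : s36th_polyD D (C a) = C (D a) := by
  rw [← monomial_zero_left, s36th_polyD_monomial, monomial_zero_left]

theorem s36th_polyD_eq_zero (D : A →+ A) (p : A[X]) (h : ∀ i, D (p.coeff i) = 0) :
    s36th_polyD D p = 0 := by
  ext n
  rw [s36th_polyD_coeff, h, coeff_zero]

/-- an additive map satisfying the Leibniz rule. -/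
def s36th_IsDer (D : A →+ A) : Prop := ∀ a b, D (a * b) = a * D b + b * D a

theorem s36th_der_one {D : A →+ A} (hD : s36th_IsDer D) : D 1 = 0 := by
  have h := hD 1 1
  rw [mul_one, one_mul] at h
  have h2 : D 1 + D 1 = D 1 + 0 := by rw [add_zero]; exact h.symm
  exact add_left_cancel h2

theorem s36th_der_natCast {D : A →+ A} (hD : s36th_IsDer D) (n : ℕ) : D (n : A) = 0 := by
  rw [← nsmul_one, map_nsmul, s36th_der_one hD, smul_zero]

theorem s36th_der_pow {D : A →+ A} (hD : s36th_IsDer D) (a : A) (n : ℕ) :
    D (a ^ n) = (n : A) * a ^ (n - 1) * D a := by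
  induction n with
  | zero => rw [pow_zero, s36th_der_one hD, Nat.cast_zero, zero_mul, zero_mul]
  | succ n ih =>
    rw [pow_succ, hD, ih]
    rcases Nat.eq_zero_or_pos n with h0 | hpos
    · subst h0
      simp
    · have h1 : a ^ n = a ^ (n - 1) * a := by
        rw [← pow_succ, Nat.sub_add_cancel hpos]
      rw [Nat.add_sub_cancel, Nat.cast_succ]
      have h2 : a * (↑n * a ^ (n - 1) * D a) = ↑n * (a ^ (n - 1) * a) * D a := by ring
      rw [h2, ← h1]
      ring

/-- the chain rule for a derivation: `D (p(x)) = p^D(x) + p'(x) D x`. -/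
theorem s36th_chain {D : A →+ A} (hD : s36th_IsDer D) (p : A[X]) (x : A) :
    D (p.eval x) = (s36th_polyD D p).eval x + p.derivative.eval x * D x := by
  induction p using Polynomial.induction_on' with
  | add p r hp hr =>
    rw [eval_add, map_add, hp, hr, s36th_polyD_add, eval_add, derivative_add, eval_add]
    ring
  | monomial n a =>
    rw [s36th_polyD_monomial, derivative_monomial, eval_monomial, eval_monomial, eval_monomial,
      hD, s36th_der_pow hD]
    ring

end PolyD

section Field

/-- the quotient rule. -/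
theorem s36th_der_div {K : Type*} [Field K] {D : K →+ K} (hD : s36th_IsDer D) (a b : K)
    (hb : b ≠ 0) : D (a / b) = (D a * b - a * D b) / (b * b) := by
  have h := hD (a / b) b
  rw [div_mul_cancel₀ a hb] at h
  rw [eq_div_iff (mul_ne_zero hb hb), h]
  field_simp
  ring

variable {K : Type*} [Field K] (q : ℕ) [CharP K q]

/-- **`1, a, …, a^(q-1)` are linearly independent over the constants of a derivation `Db` with
`Db a ≠ 0`** (characteristic `q`). -/
theorem s36th_indep {Db : K →+ K} (hDb : s36th_IsDer Db) (a : K) (hDa : Db a ≠ 0) :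
    ∀ (n : ℕ) (G : K[X]), G.natDegree ≤ n → n < q → (∀ i, Db (G.coeff i) = 0) → G.eval a = 0 →
      G = 0 := by
  intro n
  induction n with
  | zero =>
    intro G hG _ _ h0
    rw [eq_C_of_natDegree_le_zero hG] at h0 ⊢
    rw [eval_C] at h0
    rw [h0, C_0]
  | succ n ih =>
    intro G hG hnq hc h0
    have hchain := s36th_chain hDb G a
    rw [h0, map_zero, s36th_polyD_eq_zero _ G hc, eval_zero, zero_add] at hchain
    have hder : G.derivative.eval a = 0 := by
      rcases mul_eq_zero.1 hchain.symm with h | h
      · exact h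
      · exact absurd h hDa
    have hG' : G.derivative = 0 := by
      refine ih G.derivative ?_ (by omega) ?_ hder
      · have := natDegree_derivative_le G
        omega
      · intro i
        rw [coeff_derivative, hDb, hc]
        have h1 : Db ((i : K) + 1) = 0 := by
          have := s36th_der_natCast hDb (i + 1)
          push_cast at this
          exact this
        rw [h1, mul_zero, mul_zero, add_zero]
    have hcoeff : ∀ i, G.coeff (i + 1) = 0 := by
      intro i
      by_cases hi : i + 1 ≤ n + 1
      · have h1 := congrArg (fun p => p.coeff i) hG'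
        simp only [coeff_derivative, coeff_zero] at h1
        have h2 : ((i : K) + 1) ≠ 0 := by
          have h3 : ((i + 1 : ℕ) : K) ≠ 0 := by
            rw [Ne, CharP.cast_eq_zero_iff K q]
            intro hdvd
            have := Nat.le_of_dvd (Nat.succ_pos i) hdvd
            omega
          push_cast at h3
          exact h3
        exact (mul_eq_zero.1 h1).resolve_right h2
      · exact coeff_eq_zero_of_natDegree_lt (by omega)
    have hGC : G = C (G.coeff 0) := by
      ext i
      cases i with
      | zero => rw [coeff_C_zero]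
      | succ i => rw [hcoeff i, coeff_C_succ]
    rw [hGC, eval_C] at h0
    rw [hGC, h0, C_0]

/-- **Kronecker's congruence**, abstract form. -/
theorem s36th_kron (hq : q.Prime) {Db : K →+ K} (hDb : s36th_IsDer Db) (βb : K →+* K)
    (hDβb : ∀ z, Db (βb z) = 0) (g : K[X]) (hg : g.Monic) (hdeg : g.natDegree ≤ q + 1) (a : K)
    (haq : βb a = a ^ q) (hDa : Db a ≠ 0) (h1 : g.eval (a ^ q) = 0)
    (h2 : (g.map βb).eval a = 0) :
    g = (X - C (a ^ q)) * (X ^ q - C a) := by
  have hm : (X ^ q - C a : K[X]).Monic := monic_X_pow_sub_C a hq.ne_zero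
  have hmdeg : (X ^ q - C a : K[X]).natDegree = q := natDegree_X_pow_sub_C
  set h := g /ₘ (X ^ q - C a) with hh
  set r := g %ₘ (X ^ q - C a) with hr
  have hdiv : r + (X ^ q - C a) * h = g := modByMonic_add_div g _
  -- the remainder vanishes
  have hrdeg : r.natDegree < q := by
    have := natDegree_modByMonic_lt g hm (by
      intro h1'
      have := congrArg natDegree h1'
      rw [hmdeg, natDegree_one] at this
      exact hq.ne_zero this)
    rwa [hmdeg] at this
  have hr0 : r = 0 := by
    have h3 : (r.map βb).eval a = 0 := by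
      have h4 := congrArg (fun p => (p.map βb).eval a) hdiv
      simp only [Polynomial.map_add, Polynomial.map_mul, Polynomial.map_sub, Polynomial.map_pow,
        map_X, map_C, eval_add, eval_mul, eval_sub, eval_pow, eval_X, eval_C] at h4
      rw [h2, haq, sub_self, zero_mul, add_zero] at h4
      exact h4
    have h5 : r.map βb = 0 := by
      refine s36th_indep q hDb a hDa (q - 1) (r.map βb) ?_ (Nat.sub_lt hq.pos one_pos) ?_ h3
      · have := natDegree_map_le (f := βb) (p := r)
        omega
      · intro i
        rw [coeff_map, hDβb]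
    exact (Polynomial.map_eq_zero βb).1 h5
  rw [hr0, zero_add] at hdiv
  -- the quotient is monic of degree at most one
  have hhm : h.Monic := hm.of_mul_monic_left (by rw [hdiv]; exact hg)
  have hhdeg : h.natDegree ≤ 1 := by
    have := congrArg natDegree hdiv
    rw [hm.natDegree_mul hhm, hmdeg] at this
    omega
  -- `a ^ q` is a root of the quotient
  have hne : (a ^ q) ^ q - a ≠ 0 := by
    intro h0
    have h3 : a = βb (βb a) := by
      rw [haq, map_pow, haq]
      exact (sub_eq_zero.1 h0).symm
    apply hDa
    rw [h3, hDβb]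
  have hroot : h.eval (a ^ q) = 0 := by
    have h3 := congrArg (fun p => p.eval (a ^ q)) hdiv
    simp only [eval_mul, eval_sub, eval_pow, eval_X, eval_C] at h3
    rw [h1] at h3
    exact (mul_eq_zero.1 h3).resolve_left hne
  have hhdeg1 : h.natDegree = 1 := by
    rcases Nat.lt_or_ge h.natDegree 1 with hlt | hge
    · exfalso
      have h3 : h = 1 := by
        have h4 : h.natDegree = 0 := by omega
        have h5 := eq_C_of_natDegree_eq_zero h4
        have h6 : h.coeff 0 = 1 := by
          have := hhm.coeff_natDegree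
          rwa [h4] at this
        rw [h5, h6, C_1]
      rw [h3, eval_one] at hroot
      exact one_ne_zero hroot
    · omega
  have hhX := hhm.eq_X_add_C hhdeg1
  rw [hhX, eval_add, eval_X, eval_C] at hroot
  have hc : h.coeff 0 = -(a ^ q) := by linear_combination hroot
  rw [← hdiv, hhX, hc, C_neg]
  ring

end Field

section Abstract

variable {B K : Type*} [CommRing B] [Field K] (q : ℕ) [CharP K q]

/-- **The different divides `q`**: abstract form of the theta-fact at the generic point. -/
theorem s36th_abstract (hq : q.Prime) {D : B →+ B} (hD : s36th_IsDer D) {Db : K →+ K}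
    (hDb : s36th_IsDer Db) (β : B →+* B) (βb : K →+* K) (res : B →+* K)
    (hDβ : ∀ z, D (β z) = (q : B) * β (D z)) (hDβb : ∀ z, Db (βb z) = 0)
    (hresD : ∀ b, res (D b) = Db (res b)) (hresβ : ∀ b, res (β b) = βb (res b))
    (hunit : ∀ b : B, res b ≠ 0 → IsUnit b)
    (f : B[X]) (hf : f.Monic) (hdeg : f.natDegree ≤ q + 1) (x : B)
    (hfx1 : f.eval (β x) = 0) (hPx : (f.map β).eval x = 0)
    (hxq : βb (res x) = res x ^ q) (hDx : Db (res x) ≠ 0) :
    ∃ w : Bˣ, (f.map β).derivative.eval x * (w : B) = (q : B) := by
  set a : K := res x with ha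
  set fb : K[X] := f.map res with hfb
  have hfbm : fb.Monic := hf.map res
  have hfbdeg : fb.natDegree ≤ q + 1 := (natDegree_map_le).trans hdeg
  have hcomp : βb.comp res = res.comp β := by
    ext b
    exact (hresβ b).symm
  have h1 : fb.eval (a ^ q) = 0 := by
    rw [← hxq, ha, ← hresβ, hfb, eval_map, eval₂_hom, hfx1, map_zero]
  have h2 : (fb.map βb).eval a = 0 := by
    rw [hfb, Polynomial.map_map, hcomp, ← Polynomial.map_map, ha, eval_map, eval₂_hom, hPx,
      map_zero]
  have hk := s36th_kron q hq hDb βb hDβb fb hfbm hfbdeg a hxq hDx h1 h2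
  -- the chain rule
  have hchain := s36th_chain hD (f.map β) x
  rw [hPx, map_zero] at hchain
  have hpolyD : s36th_polyD D (f.map β) =
      C (q : B) * (s36th_polyD D f).map β := by
    ext i
    rw [s36th_polyD_coeff, coeff_map, coeff_C_mul, coeff_map, s36th_polyD_coeff]
    exact hDβ _
  set U : B := ((s36th_polyD D f).map β).eval x with hU
  rw [hpolyD, eval_mul, eval_C, ← hU] at hchain
  -- the residue of `U`
  have hresPoly : (s36th_polyD D f).map res = s36th_polyD Db fb := by
    ext i
    rw [coeff_map, s36th_polyD_coeff, s36th_polyD_coeff, hfb, coeff_map]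
    exact hresD _
  have hresU : res U = βb (Db a) * (βb (βb a) - a) := by
    rw [hU, ← eval₂_hom, ← eval_map, Polynomial.map_map, ← hcomp, ← Polynomial.map_map,
      hresPoly, hk]
    have e1 : ((X - C (a ^ q)) * (X ^ q - C a) : K[X]) =
        C (1 : K) * X ^ (q + 1) - C (a ^ q) * X ^ q - C a * X ^ 1 + C (a ^ (q + 1)) := by
      rw [C_1, pow_one, C_pow, C_pow]
      ring
    have hDaq : Db (a ^ q) = 0 := by
      rw [s36th_der_pow hDb, CharP.cast_eq_zero K q, zero_mul, zero_mul]
    have hDaq1 : Db (a ^ (q + 1)) = a ^ q * Db a := by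
      rw [pow_succ, hDb, hDaq, mul_zero, add_zero]
    have hD1 : Db 1 = 0 := s36th_der_one hDb
    rw [e1, s36th_polyD_add, s36th_polyD_sub, s36th_polyD_sub, s36th_polyD_C_mul_X_pow,
      s36th_polyD_C_mul_X_pow, s36th_polyD_C_mul_X_pow, s36th_polyD_C, hDaq, hDaq1, hD1]
    rw [← ha, hxq, map_pow, hxq]
    simp only [zero_mul, sub_zero, Polynomial.map_add,
      Polynomial.map_mul, Polynomial.map_pow, Polynomial.map_neg, map_X, map_C, eval_add,
      eval_mul, eval_neg, eval_pow, eval_X, eval_C, map_mul, map_pow, map_zero,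
      zero_sub, pow_one, hxq]
    ring
  have hresU0 : res U ≠ 0 := by
    rw [hresU]
    refine mul_ne_zero ?_ ?_
    · intro h0
      exact hDx ((map_eq_zero βb).1 h0)
    · intro h0
      apply hDx
      have h3 : a = βb (βb a) := (sub_eq_zero.1 h0).symm
      rw [h3, hDβb]
  have hresDx : res (D x) ≠ 0 := by
    rw [hresD]
    exact hDx
  obtain ⟨u, hu⟩ := hunit U hresU0
  obtain ⟨v, hv⟩ := hunit (D x) hresDx
  refine ⟨-(v * u⁻¹), ?_⟩
  have h3 : (f.map β).derivative.eval x * D x = -((q : B) * U) := by
    linear_combination -hchain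
  have h4 : (U : B) * ((u⁻¹ : Bˣ) : B) = 1 := by
    rw [← hu, Units.mul_inv]
  rw [Units.val_neg, Units.val_mul, hv]
  linear_combination (-((u⁻¹ : Bˣ) : B)) * h3 + (q : B) * h4

end Abstract

end Fermat.Agent.S36
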