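/-
Project S36 (Carayol), cell [M2] leaf [THETA] = [V3-INST](ii) (helper8): the derivation
`D = X d/dX` of Laurent series and its compatibility with `X ↦ X^N` (`qExpand`), with change of
coefficients (`coeffMap`), with the ring of Gauss-bounded quotients (`gq_bddSubring`) and with the
Gauss reduction (`gq_res`).  Prefix `s36th_`.
-/
import Mathlib
import Fermat.Prelude.Def_ModularCurve_X0
import Fermat.Agent.JT3.Bridge.GaussVal
import Fermat.Agent.S36.Theta.Kron

set_option autoImplicit false

noncomputable section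

open ModularCurve IsLocalRing

namespace Fermat.Agent.S36

open Fermat.Agent.JT3

section Def

variable (R : Type*) [CommRing R]

/-- `X d/dX` on Laurent series, as a function. -/
def s36th_Dfun (f : LaurentSeries R) : LaurentSeries R where
  coeff n := n • f.coeff n
  isPWO_support' := f.isPWO_support.mono (by
    intro n hn
    rw [Function.mem_support] at hn
    rw [HahnSeries.mem_support]
    intro h0
    apply hn
    rw [h0, smul_zero])

variable {R}

theorem s36th_Dfun_coeff (f : LaurentSeries R) (n : ℤ) :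
    (s36th_Dfun R f).coeff n = n • f.coeff n := rfl

theorem s36th_Dfun_support (f : LaurentSeries R) : (s36th_Dfun R f).support ⊆ f.support := by
  intro n hn
  rw [HahnSeries.mem_support] at hn ⊢
  intro h0
  apply hn
  rw [s36th_Dfun_coeff, h0, smul_zero]

theorem s36th_Dfun_add (f g : LaurentSeries R) :
    s36th_Dfun R (f + g) = s36th_Dfun R f + s36th_Dfun R g := by
  ext n
  rw [HahnSeries.coeff_add, s36th_Dfun_coeff, s36th_Dfun_coeff, s36th_Dfun_coeff,
    HahnSeries.coeff_add, smul_add]

theorem s36th_Dfun_mul (f g : LaurentSeries R) :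
    s36th_Dfun R (f * g) = s36th_Dfun R f * g + f * s36th_Dfun R g := by
  ext n
  rw [HahnSeries.coeff_add,
    HahnSeries.coeff_mul_left' f.isPWO_support (s36th_Dfun_support f),
    HahnSeries.coeff_mul_right' g.isPWO_support (s36th_Dfun_support g),
    s36th_Dfun_coeff, HahnSeries.coeff_mul, Finset.smul_sum, ← Finset.sum_add_distrib]
  refine Finset.sum_congr rfl fun ij hij => ?_
  have h := (Finset.mem_antidiagonal.1 hij).2.2
  rw [s36th_Dfun_coeff, s36th_Dfun_coeff, ← h, add_smul, smul_mul_assoc, mul_smul_comm]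

variable (R)

/-- **`X d/dX` as an additive endomorphism of the ring of Laurent series.** -/
def s36th_D : LaurentSeries R →+ LaurentSeries R :=
  AddMonoidHom.mk' (s36th_Dfun R) s36th_Dfun_add

/-- `X d/dX` satisfies the Leibniz rule. -/
theorem s36th_D_isDer : s36th_IsDer (s36th_D R) := by
  intro a b
  change s36th_Dfun R (a * b) = a * s36th_Dfun R b + b * s36th_Dfun R a
  rw [s36th_Dfun_mul]
  ring

variable {R}

@[simp]
theorem s36th_D_coeff (f : LaurentSeries R) (n : ℤ) :
    (s36th_D R f).coeff n = n • f.coeff n := rfl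

/-- `D (f(X^N)) = N · (D f)(X^N)`. -/
theorem s36th_D_qExpand (N : ℕ) [NeZero N] (f : LaurentSeries R) :
    s36th_D R (qExpand R N f) = (N : LaurentSeries R) * qExpand R N (s36th_D R f) := by
  have hN : (N : LaurentSeries R) = HahnSeries.C (N : R) := (map_natCast HahnSeries.C N).symm
  rw [hN]
  ext k
  rw [show (HahnSeries.C (N : R) : LaurentSeries R) = HahnSeries.single (0 : ℤ) (N : R) from rfl,
    HahnSeries.coeff_single_zero_mul, s36th_D_coeff]
  by_cases hk : (N : ℤ) ∣ k
  · obtain ⟨m, rfl⟩ := hk
    rw [qExpand_coeff_mul, qExpand_coeff_mul, s36th_D_coeff, zsmul_eq_mul, zsmul_eq_mul]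
    push_cast
    ring
  · rw [qExpand_coeff_of_not_dvd N _ hk, qExpand_coeff_of_not_dvd N _ hk, smul_zero, mul_zero]

/-- `D` commutes with change of coefficients. -/
theorem s36th_D_coeffMap {S : Type*} [CommRing S] (φ : R →+* S) (f : LaurentSeries R) :
    s36th_D S (coeffMap φ f) = coeffMap φ (s36th_D R f) := by
  ext n
  rw [s36th_D_coeff, coeffMap_coeff, coeffMap_coeff, s36th_D_coeff, map_zsmul]

end Def

section Bdd

variable {O : Type*} [CommRing O] [IsDomain O] [IsLocalRing O]
variable {K : Type*} [Field K] [Algebra O K]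

omit [IsDomain O] [IsLocalRing O] in
/-- the quotient rule at the level of presentations. -/
theorem s36th_D_quot {z : LaurentSeries K} {z1 z2 : LaurentSeries O}
    (hz : z * coeffMap (algebraMap O K) z2 = coeffMap (algebraMap O K) z1) :
    s36th_D K z * coeffMap (algebraMap O K) (z2 * z2) =
      coeffMap (algebraMap O K) (s36th_D O z1 * z2 - z1 * s36th_D O z2) := by
  have h := congrArg (s36th_D K) hz
  rw [s36th_D_isDer K, s36th_D_coeffMap, s36th_D_coeffMap] at h
  rw [map_mul, map_sub, map_mul, map_mul, ← hz, ← h]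
  ring

omit [IsDomain O] in
/-- `D` preserves Gauss-bounded quotients. -/
theorem s36th_D_isBdd {z : LaurentSeries K} (h : gq_IsBdd O K z) :
    gq_IsBdd O K (s36th_D K z) := by
  obtain ⟨z1, z2, hz2, hz⟩ := h
  refine ⟨s36th_D O z1 * z2 - z1 * s36th_D O z2, z2 * z2, ?_, s36th_D_quot hz⟩
  rw [map_mul]
  exact mul_ne_zero hz2 hz2

variable [IsFractionRing O K]

/-- **reduction commutes with `D`.** -/
theorem s36th_res_D (z : ↥(gq_bddSubring O K)) :
    gq_res O K ⟨s36th_D K (z : LaurentSeries K), s36th_D_isBdd z.2⟩ =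
      s36th_D (ResidueField O) (gq_res O K z) := by
  obtain ⟨z1, z2, hz2, hz⟩ := z.2
  have hz22 : coeffMap (residue O) (z2 * z2) ≠ 0 := by
    rw [map_mul]
    exact mul_ne_zero hz2 hz2
  have h1 := gq_res_eq z hz2 hz
  have h2 := gq_res_eq (⟨s36th_D K (z : LaurentSeries K), s36th_D_isBdd z.2⟩ :
    ↥(gq_bddSubring O K)) hz22 (s36th_D_quot hz)
  rw [h1, h2, s36th_der_div (s36th_D_isDer (ResidueField O)) _ _ hz2]
  have e1 : coeffMap (residue O) (s36th_D O z1 * z2 - z1 * s36th_D O z2) =
      s36th_D (ResidueField O) (coeffMap (residue O) z1) * coeffMap (residue O) z2 -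
        coeffMap (residue O) z1 * s36th_D (ResidueField O) (coeffMap (residue O) z2) := by
    rw [map_sub, map_mul, map_mul, s36th_D_coeffMap, s36th_D_coeffMap]
  have e2 : coeffMap (residue O) (z2 * z2) =
      coeffMap (residue O) z2 * coeffMap (residue O) z2 := map_mul _ _ _
  rw [e1, e2]

end Bdd

end Fermat.Agent.S36
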