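/-
Project S36 (Carayol), cell [M2] leaf [THETA] = [V3-INST](ii) (helper8): the norm of `x - θ` as the
value of a derivative (Mathlib only).  Prefix `s36th_`.

* `s36th_norm_sub_gen` : `N_{E2/E1}(a - θ) = minpoly_{E1}(θ)(a)` when `E2 = E1[θ]`;
* `s36th_norm_of_root` : if `P ∈ E1[Y]` is monic of degree `≤ [E2:E1] + 1` with `P(x) = 0`,
  `P(θ) = 0`, `E2 = E1[θ]`, `[E2:E1] ≥ 2`, then `N_{E2/E1}(x - θ) = P'(x)`;
* `s36th_norm_cases` : for `[E2:E1] = q` prime, either that, or `θ ∈ E1` and
  `N(x - θ) = (x - θ)^q`;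
* `s36th_norm_sigma` : the form with an automorphism `σ` of `E2` over a subfield `K`, `θ = σ G`,
  `P =` the minimal polynomial of `G ∈ E1` over `K`;
* `s36th_intNorm_notMem` : the passage to `Algebra.intNorm` and `p ^ 2`.
-/
import Mathlib

set_option autoImplicit false

namespace Fermat.Agent.S36

open Polynomial Module

section Norm

variable {E1 E2 : Type*} [Field E1] [Field E2] [Algebra E1 E2] [FiniteDimensional E1 E2]

/-- `N(a - θ) = minpoly(θ)(a)` when `θ` generates. -/
theorem s36th_norm_sub_gen (θ : E2) (hθ : Algebra.adjoin E1 {θ} = ⊤) (a : E1) :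
    Algebra.norm E1 (algebraMap E1 E2 a - θ) = (minpoly E1 θ).eval a := by
  classical
  have hint : IsIntegral E1 θ := Algebra.IsIntegral.isIntegral θ
  let pb : PowerBasis E1 E2 := PowerBasis.ofAdjoinEqTop hint hθ
  have hgen : pb.gen = θ := PowerBasis.ofAdjoinEqTop_gen hint hθ
  rw [Algebra.norm_eq_matrix_det pb.basis, map_sub, AlgHom.commutes, ← hgen,
    ← charpoly_leftMulMatrix pb, Matrix.eval_charpoly]
  rfl

/-- the degree of the minimal polynomial of a generator. -/
theorem s36th_natDegree_minpoly_gen (θ : E2) (hθ : Algebra.adjoin E1 {θ} = ⊤) :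
    (minpoly E1 θ).natDegree = finrank E1 E2 := by
  have hint : IsIntegral E1 θ := Algebra.IsIntegral.isIntegral θ
  have h := (PowerBasis.ofAdjoinEqTop hint hθ).finrank
  rw [PowerBasis.ofAdjoinEqTop_dim] at h
  exact h.symm

/-- **the norm of `x - θ` is the derivative at `x` of a polynomial vanishing at `x` and `θ`.** -/
theorem s36th_norm_of_root (hE2 : 2 ≤ finrank E1 E2) (P : E1[X]) (hP : P.Monic)
    (hdeg : P.natDegree ≤ finrank E1 E2 + 1) (x : E1) (hx : P.eval x = 0) (θ : E2)
    (hθ : aeval θ P = 0) (hgen : Algebra.adjoin E1 {θ} = ⊤) :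
    Algebra.norm E1 (algebraMap E1 E2 x - θ) = P.derivative.eval x := by
  have hGdeg := s36th_natDegree_minpoly_gen θ hgen
  have hint : IsIntegral E1 θ := Algebra.IsIntegral.isIntegral θ
  set Q := P /ₘ (X - C x) with hQ
  have hPQ : (X - C x) * Q = P := mul_divByMonic_eq_iff_isRoot.2 hx
  have hQm : Q.Monic := (monic_X_sub_C x).of_mul_monic_left (by rw [hPQ]; exact hP)
  have hQdeg : Q.natDegree ≤ finrank E1 E2 := by
    have := congrArg natDegree hPQ
    rw [(monic_X_sub_C x).natDegree_mul hQm, natDegree_X_sub_C] at this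
    omega
  have hne : θ - algebraMap E1 E2 x ≠ 0 := by
    intro h0
    have h1 : θ = algebraMap E1 E2 x := sub_eq_zero.1 h0
    rw [h1, minpoly.eq_X_sub_C, natDegree_X_sub_C] at hGdeg
    omega
  have hQθ : aeval θ Q = 0 := by
    have h1 := hθ
    rw [← hPQ, map_mul, map_sub, aeval_X, aeval_C] at h1
    exact (mul_eq_zero.1 h1).resolve_left hne
  have hdvd : minpoly E1 θ ∣ Q := minpoly.dvd E1 θ hQθ
  have hQG : Q = minpoly E1 θ :=
    eq_of_monic_of_dvd_of_natDegree_le (minpoly.monic hint) hQm hdvd (by rw [hGdeg]; exact hQdeg)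
  rw [s36th_norm_sub_gen θ hgen, ← hQG, ← hPQ, derivative_mul, eval_add, eval_mul, eval_mul,
    eval_sub, eval_X, eval_C, sub_self, zero_mul, add_zero, derivative_sub, derivative_X,
    derivative_C, sub_zero, eval_one, one_mul]

/-- the two cases for a prime degree. -/
theorem s36th_norm_cases {q : ℕ} (hq : q.Prime) (hE2 : finrank E1 E2 = q) (P : E1[X])
    (hP : P.Monic) (hdeg : P.natDegree ≤ q + 1) (x : E1) (hx : P.eval x = 0) (θ : E2)
    (hθ : aeval θ P = 0) :
    Algebra.norm E1 (algebraMap E1 E2 x - θ) = P.derivative.eval x ∨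
      ∃ θ' : E1, θ = algebraMap E1 E2 θ' ∧
        Algebra.norm E1 (algebraMap E1 E2 x - θ) = (x - θ') ^ q := by
  have hsimple := Subalgebra.isSimpleOrder_of_finrank_prime E1 E2 (hE2 ▸ hq)
  rcases hsimple.eq_bot_or_eq_top (Algebra.adjoin E1 {θ}) with h | h
  · right
    have hmem : θ ∈ Algebra.adjoin E1 {θ} := Algebra.subset_adjoin (Set.mem_singleton θ)
    rw [h] at hmem
    obtain ⟨θ', hθ'⟩ := Algebra.mem_bot.1 hmem
    refine ⟨θ', hθ'.symm, ?_⟩
    rw [← hθ', ← map_sub, Algebra.norm_algebraMap, hE2]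
  · left
    exact s36th_norm_of_root (by rw [hE2]; exact hq.two_le) P hP (by rw [hE2]; exact hdeg) x hx θ
      hθ h

end Norm

section Sigma

variable {K E1 E2 : Type*} [Field K] [Field E1] [Field E2] [Algebra K E1] [Algebra K E2]
  [Algebra E1 E2] [IsScalarTower K E1 E2] [FiniteDimensional E1 E2]

/-- the `σ`-form: `N_{E2/E1}(G - σ G) = P_G'(G)`, `P_G` the minimal polynomial of `G` over `K`. -/
theorem s36th_norm_sigma (hE2 : 2 ≤ finrank E1 E2) (σ : E2 →ₐ[K] E2) (G : E1)
    (hG : IsIntegral K G) (hd : (minpoly K G).natDegree ≤ finrank E1 E2 + 1)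
    (hgen : Algebra.adjoin E1 {σ (algebraMap E1 E2 G)} = ⊤) :
    Algebra.norm E1 (algebraMap E1 E2 G - σ (algebraMap E1 E2 G)) =
      ((minpoly K G).map (algebraMap K E1)).derivative.eval G := by
  refine s36th_norm_of_root hE2 _ ((minpoly.monic hG).map _) ?_ G ?_ _ ?_ hgen
  · exact (natDegree_map_le).trans hd
  · rw [eval_map, ← aeval_def, minpoly.aeval]
  · rw [aeval_map_algebraMap, aeval_algHom_apply σ,
      show algebraMap E1 E2 G = IsScalarTower.toAlgHom K E1 E2 G from rfl,
      aeval_algHom_apply (IsScalarTower.toAlgHom K E1 E2), minpoly.aeval, map_zero, map_zero]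

end Sigma

section IntNorm

variable {A K L B : Type*} [CommRing A] [CommRing B] [Algebra A B] [Field K] [Field L]
  [Algebra A K] [IsFractionRing A K] [Algebra K L] [Algebra A L] [IsScalarTower A K L]
  [Algebra B L] [IsScalarTower A B L] [IsIntegralClosure B A L] [FiniteDimensional K L]
  [IsIntegrallyClosed A] [IsDomain A] [IsDomain B] [IsIntegrallyClosed B]
  [Algebra.IsIntegral A B] [IsTorsionFree A B]

/-- **the hypothesis `hN` of `s36v_main`**: if the norm of `z` divides `c` and `c ∉ p ^ 2` then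
`Algebra.intNorm A B z ∉ p ^ 2`. -/
theorem s36th_intNorm_notMem (p : Ideal A) (c w : A) (hc : c ∉ p ^ 2) (z : B)
    (h : Algebra.norm K (algebraMap B L z) * algebraMap A K w = algebraMap A K c) :
    Algebra.intNorm A B z ∉ p ^ 2 := by
  intro hmem
  apply hc
  have h1 : Algebra.intNorm A B z * w = c := by
    apply IsFractionRing.injective A K
    rw [map_mul, Algebra.algebraMap_intNorm (K := K) (L := L), h]
  rw [← h1]
  exact Ideal.mul_mem_right _ _ hmem

end IntNorm

end Fermat.Agent.S36
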