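/-
Project S36 (Carayol), cell [M2] leaf [THETA] = [V3-INST](ii) (helper8): THE THETA-FACT AT THE
GENERIC POINT, for a tower `E' ≤ E ≤ E2` inside `Quot(O((X))) ⊆ L((X))` (context of
`ssm_gt_data`, SS/Model/TwoPrimesInst.lean).

`x = lam' ∈ E'` a coordinate which is the image of a series `y` over `O` whose reduction has
`𝔽_q`-coefficients and a nonzero coefficient at an exponent prime to `q`; `W` an involution of `E`
with `W z = z(X^q)` on `E'`, `[E : E'] = q + 1`; `x₁ = W x = x(X^q)`;
`P := (minpoly_{E'} x₁)^{W}` (`s36th_P`), a monic polynomial of degree `≤ q + 1` over `E` with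
`P(x) = 0` and `P(x(X^{q²})) = 0`.

* `s36th_tower` : `P'(x) · w = q` with `w` a UNIT of the Gauss valuation ring of `E`
  (the different of `E` over `β E'` at the Gauss valuation is `q`);
* `s36th_main` : for `E ≤ E2` with `[E2 : E] = q` and `x₂ = x(X^{q²}) ∈ E2`:
  `N_{E2/E}(x - x₂) · w = q` with `w` in the Gauss valuation ring of `E`.

Prefix `s36th_`.
-/
import Mathlib
import Fermat.Agent.SS.Model.TwoPrimesInst
import Fermat.Agent.S36.Theta.Deriv
import Fermat.Agent.S36.Theta.Norm

set_option autoImplicit false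
set_option linter.unusedSectionVars false
set_option linter.unusedVariables false
set_option linter.style.haveILetI false

noncomputable section

open ModularCurve IntermediateField IsLocalRing Polynomial
open Fermat.Agent.JT3 Fermat.Agent.SS

namespace Fermat.Agent.S36

/-! ## the ring of bounded quotients with its derivation and its endomorphism -/

section RingB

variable {O : Type*} [CommRing O] [IsDomain O] [IsLocalRing O]
variable {K : Type*} [Field K] [Algebra O K] [IsFractionRing O K]

/-- `X d/dX` on the ring of bounded quotients. -/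
def s36th_DB : ↥(gq_bddSubring O K) →+ ↥(gq_bddSubring O K) where
  toFun b := ⟨s36th_D K (b : LaurentSeries K), s36th_D_isBdd b.2⟩
  map_zero' := Subtype.ext (map_zero _)
  map_add' a b := Subtype.ext (map_add _ _ _)

theorem s36th_DB_isDer : s36th_IsDer (s36th_DB (O := O) (K := K)) := by
  intro a b
  apply Subtype.ext
  exact s36th_D_isDer K (a : LaurentSeries K) (b : LaurentSeries K)

/-- `X ↦ X^q` on the ring of bounded quotients. -/
def s36th_betaB (q : ℕ) [NeZero q] : ↥(gq_bddSubring O K) →+* ↥(gq_bddSubring O K) :=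
  ((qExpand K q).comp (gq_bddSubring O K).subtype).codRestrict (gq_bddSubring O K)
    (fun b => ssm_ga_beta_isBdd q b.2)

theorem s36th_coe_betaB (q : ℕ) [NeZero q] (b : ↥(gq_bddSubring O K)) :
    ((s36th_betaB q b : ↥(gq_bddSubring O K)) : LaurentSeries K) =
      qExpand K q (b : LaurentSeries K) := rfl

theorem s36th_isUnit_of_res (b : ↥(gq_bddSubring O K)) (h : gq_res O K b ≠ 0) : IsUnit b := by
  have hb0 : (b : LaurentSeries K) ≠ 0 := by
    intro h0
    apply h
    have : b = 0 := Subtype.ext h0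
    rw [this, map_zero]
  refine IsUnit.of_mul_eq_one ⟨(b : LaurentSeries K)⁻¹, gq_isBdd_inv_of_res_ne_zero b h⟩ ?_
  apply Subtype.ext
  exact mul_inv_cancel₀ hb0

theorem s36th_charP (q : ℕ) [CharP (ResidueField O) q] :
    CharP (LaurentSeries (ResidueField O)) q :=
  charP_of_injective_ringHom
    (f := (HahnSeries.C : ResidueField O →+* LaurentSeries (ResidueField O)))
    HahnSeries.C_injective q

/-- `D` kills `k((X^q))` in characteristic `q`. -/
theorem s36th_Dbar_beta (q : ℕ) [NeZero q] [CharP (ResidueField O) q]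
    (z : LaurentSeries (ResidueField O)) :
    s36th_D (ResidueField O) (qExpand (ResidueField O) q z) = 0 := by
  haveI := s36th_charP (O := O) q
  rw [s36th_D_qExpand, CharP.cast_eq_zero, zero_mul]

/-- the reduction of `y` is not a `q`-th power. -/
theorem s36th_Dbar_ne_zero (q : ℕ) [CharP (ResidueField O) q] (y : LaurentSeries O) (n : ℤ)
    (hn : ¬ (q : ℤ) ∣ n) (hyn : residue O (y.coeff n) ≠ 0) :
    s36th_D (ResidueField O) (coeffMap (residue O) y) ≠ 0 := by
  intro h0
  have h1 := congrArg (fun s => HahnSeries.coeff s n) h0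
  simp only [s36th_D_coeff, coeffMap_coeff, HahnSeries.coeff_zero, zsmul_eq_mul] at h1
  rcases mul_eq_zero.1 h1 with h2 | h2
  · exact hn ((CharP.intCast_eq_zero_iff (ResidueField O) q n).1 h2)
  · exact hyn h2

/-- `y - y(X^{q²})` is a unit of the ring of bounded quotients. -/
theorem s36th_sub_isUnit (q : ℕ) [NeZero q] [CharP (ResidueField O) q] (y : LaurentSeries O)
    (n : ℤ) (hn : ¬ (q : ℤ) ∣ n) (hyn : residue O (y.coeff n) ≠ 0) :
    coeffMap (algebraMap O K) y - qExpand K q (qExpand K q (coeffMap (algebraMap O K) y)) ≠ 0 ∧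
    gq_IsBdd O K (coeffMap (algebraMap O K) y -
      qExpand K q (qExpand K q (coeffMap (algebraMap O K) y)))⁻¹ := by
  have hb : gq_IsBdd O K (coeffMap (algebraMap O K) y -
      qExpand K q (qExpand K q (coeffMap (algebraMap O K) y))) := by
    rw [← coeffMap_qExpand, ← coeffMap_qExpand, ← map_sub]
    exact gq_isBdd_iota _
  have h1 : gq_res O K ⟨_, hb⟩ = coeffMap (residue O) (y - qExpand O q (qExpand O q y)) := by
    have h2 := gq_res_iota (K := K) (y - qExpand O q (qExpand O q y))
    rw [← h2]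
    congr 1
    apply Subtype.ext
    show _ = coeffMap (algebraMap O K) (y - qExpand O q (qExpand O q y))
    rw [map_sub, coeffMap_qExpand, coeffMap_qExpand]
  have hres : gq_res O K ⟨_, hb⟩ ≠ 0 := by
    rw [h1, map_sub, coeffMap_qExpand, coeffMap_qExpand]
    intro h0
    apply s36th_Dbar_ne_zero q y n hn hyn
    rw [sub_eq_zero.1 h0, s36th_Dbar_beta]
  refine ⟨?_, gq_isBdd_inv_of_res_ne_zero ⟨_, hb⟩ hres⟩
  intro h0
  apply hres
  have : (⟨_, hb⟩ : ↥(gq_bddSubring O K)) = 0 := Subtype.ext h0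
  rw [this, map_zero]

/-- **the core in the ring of bounded quotients.** -/
theorem s36th_core (q : ℕ) [NeZero q] [hq : Fact q.Prime] [CharP (ResidueField O) q]
    (f : (↥(gq_bddSubring O K))[X]) (hf : f.Monic) (hdeg : f.natDegree ≤ q + 1)
    (y : LaurentSeries O) (hyF : ssm_ga_FrobFixed q y) (n : ℤ) (hn : ¬ (q : ℤ) ∣ n)
    (hyn : residue O (y.coeff n) ≠ 0)
    (hfx1 : f.eval (s36th_betaB q ⟨coeffMap (algebraMap O K) y, gq_isBdd_iota y⟩) = 0)
    (hPx : (f.map (s36th_betaB q)).eval ⟨coeffMap (algebraMap O K) y, gq_isBdd_iota y⟩ = 0) :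
    ∃ w : (↥(gq_bddSubring O K))ˣ,
      (f.map (s36th_betaB q)).derivative.eval ⟨coeffMap (algebraMap O K) y, gq_isBdd_iota y⟩ *
        (w : ↥(gq_bddSubring O K)) = (q : ↥(gq_bddSubring O K)) := by
  haveI : CharP (LaurentSeries (ResidueField O)) q := s36th_charP q
  have hresx : gq_res O K ⟨coeffMap (algebraMap O K) y, gq_isBdd_iota y⟩ =
      coeffMap (residue O) y := gq_res_iota y
  refine s36th_abstract (B := ↥(gq_bddSubring O K)) (K := LaurentSeries (ResidueField O)) q hq.out
    s36th_DB_isDer (s36th_D_isDer (ResidueField O)) (s36th_betaB q)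
    (qExpand (ResidueField O) q) (gq_res O K) ?_ ?_ ?_ ?_ s36th_isUnit_of_res f hf hdeg _ hfx1 hPx
    ?_ ?_
  · intro z
    apply Subtype.ext
    have h := s36th_D_qExpand q (z : LaurentSeries K)
    rw [show ((s36th_DB (s36th_betaB q z) : ↥(gq_bddSubring O K)) : LaurentSeries K) =
      s36th_D K (qExpand K q (z : LaurentSeries K)) from rfl, h]
    push_cast
    rfl
  · intro z
    exact s36th_Dbar_beta q z
  · intro b
    exact s36th_res_D b
  · intro b
    exact ssm_ga_res_beta q b
  · rw [hresx, ca_pow_eq_qExpand_frobenius (ResidueField O) q (coeffMap (residue O) y), hyF]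
  · rw [hresx]
    exact s36th_Dbar_ne_zero q y n hn hyn

end RingB

/-! ## the tower -/

section Tower

variable {L : Type*} [Field L] [CharZero L] (O : ValuationSubring L)
  [IsDiscreteValuationRing O] {π : O} (hπ : Irreducible π)
variable (q : ℕ) [NeZero q] [hq : Fact q.Prime] [CharP (ResidueField O) q]
variable (E' E : IntermediateField L (LaurentSeries L)) (hle : E' ≤ E)
  (hE : E ≤ gq_quotField O L)

local notation "R'" => gq_valSubOf π hπ.ne_zero hπ.maximalIdeal_eq E' (hle.trans hE)

/-- the polynomial `P = (minpoly_{E'} (W x))^W ∈ E[Y]`. -/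
def s36th_P (W : ↥E ≃+* ↥E) (lam' : ↥E') : (↥E)[X] :=
  letI := ssm_gi_algebra hle
  (minpoly ↥E' (W (IntermediateField.inclusion hle lam'))).map
    ((W : ↥E →+* ↥E).comp (algebraMap ↥E' ↥E))

/-- the Gauss ring of `E'` maps to the ring of bounded quotients. -/
def s36th_iota' : ↥(gq_valSubOf π hπ.ne_zero hπ.maximalIdeal_eq E' (hle.trans hE)) →+*
    ↥(gq_bddSubring ↥O L) where
  toFun z := ⟨((z : ↥E') : LaurentSeries L), z.2⟩
  map_one' := rfl
  map_mul' _ _ := rfl
  map_zero' := rfl
  map_add' _ _ := rfl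

set_option synthInstance.maxHeartbeats 200000 in
set_option maxHeartbeats 1000000 in
/-- **the different of `E` over `β E'` at the Gauss valuation is `q`**: `P(x) = 0`, `P` monic of
degree `≤ q + 1`, `P(x(X^{q²})) = 0` and `P'(x) · w = q` with `w` a unit of the Gauss ring. -/
theorem s36th_tower (W : ↥E ≃+* ↥E) (hWW : ∀ x, W (W x) = x)
    (hW : ∀ z : ↥E', ((W (IntermediateField.inclusion hle z) : ↥E) : LaurentSeries L) =
      qExpand L q (z : LaurentSeries L))
    (hrank : IntermediateField.relfinrank E' E = q + 1)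
    (y : LaurentSeries O) (hyF : ssm_ga_FrobFixed q y) (n : ℤ) (hn : ¬ (q : ℤ) ∣ n)
    (hyn : residue O (y.coeff n) ≠ 0) (lam' : ↥E')
    (hlam : (lam' : LaurentSeries L) = coeffMap (algebraMap O L) y) :
    (s36th_P E' E hle W lam').Monic ∧ (s36th_P E' E hle W lam').natDegree ≤ q + 1 ∧
    (s36th_P E' E hle W lam').eval (IntermediateField.inclusion hle lam') = 0 ∧
    ((s36th_P E' E hle W lam').map E.val.toRingHom).eval
      (qExpand L q (qExpand L q (lam' : LaurentSeries L))) = 0 ∧
    ∃ w : ↥E, w ∈ gq_valSubOf π hπ.ne_zero hπ.maximalIdeal_eq E hE ∧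
      w⁻¹ ∈ gq_valSubOf π hπ.ne_zero hπ.maximalIdeal_eq E hE ∧
      (s36th_P E' E hle W lam').derivative.eval (IntermediateField.inclusion hle lam') * w =
        (q : ↥E) := by
  letI := ssm_gi_algebra hle
  letI := ssm_gi_algebraV hle (gq_valSubOf π hπ.ne_zero hπ.maximalIdeal_eq E' (hle.trans hE))
  haveI := ssm_gi_isScalarTower hle
    (gq_valSubOf π hπ.ne_zero hπ.maximalIdeal_eq E' (hle.trans hE))
  have hfr : Module.finrank ↥E' ↥E = q + 1 := (ssm_gt_finrank_eq hle).trans hrank
  haveI : FiniteDimensional ↥E' ↥E := ssm_gi_finiteDimensional hfr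
  haveI : Algebra.IsSeparable ↥E' ↥E := ssm_gi_isSeparable
  have D := ssm_gt_data O hπ q E' E hle hE W hWW hW hrank y hyF n hn hyn lam' hlam
  set x : ↥E := IntermediateField.inclusion hle lam' with hx
  set x₁ : ↥E := W x with hx₁
  -- `x₁` is integral over the Gauss ring of `E'`
  have hxcoe : (x : LaurentSeries L) = coeffMap (algebraMap O L) y := hlam
  have hx₁coe : (x₁ : LaurentSeries L) = qExpand L q (coeffMap (algebraMap O L) y) := by
    rw [hx₁, hx, hW, hlam]
  have hint : IsIntegral ↥R' x₁ := by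
    refine (ssm_tw_integral D x₁).2 ⟨?_, ?_⟩
    · rw [gq_mem_valSubOf, hx₁coe]
      exact ssm_ga_beta_isBdd q (gq_isBdd_iota y)
    · rw [ValuationSubring.mem_comap]
      show W x₁ ∈ _
      rw [hx₁, hWW, gq_mem_valSubOf, hxcoe]
      exact gq_isBdd_iota y
  set g : (↥R')[X] := minpoly ↥R' x₁ with hg
  have hgm : g.Monic := minpoly.monic hint
  have hF : minpoly ↥E' x₁ = g.map (algebraMap ↥R' ↥E') :=
    minpoly.isIntegrallyClosed_eq_field_fractions' ↥E' hint
  have hgdeg : g.natDegree ≤ q + 1 := by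
    have h1 : (g.map (algebraMap ↥R' ↥E')).natDegree = g.natDegree := hgm.natDegree_map _
    rw [← h1, ← hF, ← hfr]
    exact minpoly.natDegree_le x₁
  -- the polynomial `P`
  set φ : ↥R' →+* ↥E := (W : ↥E →+* ↥E).comp (algebraMap ↥R' ↥E) with hφ
  have hP : s36th_P E' E hle W lam' = g.map φ := by
    unfold s36th_P
    have h1 : ((W : ↥E →+* ↥E).comp (algebraMap ↥E' ↥E)).comp (algebraMap ↥R' ↥E') = φ :=
      RingHom.ext fun z => rfl
    rw [← hx, ← hx₁, hF, Polynomial.map_map, h1]
  have hg0 : g.eval₂ (algebraMap ↥R' ↥E) x₁ = 0 := by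
    have := minpoly.aeval ↥R' x₁
    rwa [aeval_def] at this
  have hPx : (g.map φ).eval x = 0 := by
    have h1 := congrArg (W : ↥E →+* ↥E) hg0
    rw [hom_eval₂, map_zero] at h1
    rw [eval_map, hφ]
    have h2 : (W : ↥E →+* ↥E) x₁ = x := hWW x
    rwa [h2] at h1
  -- the ring homomorphisms to `L((X))`
  set jE : ↥E →+* LaurentSeries L := E.val.toRingHom with hjE
  set jB : ↥(gq_bddSubring ↥O L) →+* LaurentSeries L := (gq_bddSubring ↥O L).subtype with hjB
  have hjBinj : Function.Injective jB := Subtype.val_injective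
  set ι' := s36th_iota' O hπ E' E hle hE with hι'
  have hcomp1 : jB.comp ι' = jE.comp (algebraMap ↥R' ↥E) := RingHom.ext fun z => rfl
  have hcomp2 : jB.comp ((s36th_betaB q).comp ι') = jE.comp φ := by
    refine RingHom.ext fun z => ?_
    exact (hW (z : ↥E')).symm
  set xB : ↥(gq_bddSubring ↥O L) := ⟨coeffMap (algebraMap O L) y, gq_isBdd_iota y⟩ with hxB
  have hjBx : jB xB = jE x := hxcoe.symm
  have hjBx₁ : jB (s36th_betaB q xB) = jE x₁ := hx₁coe.symm
  set f : (↥(gq_bddSubring ↥O L))[X] := g.map ι' with hf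
  have hfm : f.Monic := hgm.map ι'
  have hfdeg : f.natDegree ≤ q + 1 := (natDegree_map_le).trans hgdeg
  have hfx1 : f.eval (s36th_betaB q xB) = 0 := by
    apply hjBinj
    rw [map_zero, hf, eval_map, hom_eval₂, hcomp1, hjBx₁, ← hom_eval₂, hg0, map_zero]
  have hfPx : (f.map (s36th_betaB q)).eval xB = 0 := by
    apply hjBinj
    rw [map_zero, hf, Polynomial.map_map, eval_map, hom_eval₂, hcomp2, hjBx, ← hom_eval₂,
      ← eval_map, hPx, map_zero]
  obtain ⟨wB, hwB⟩ := s36th_core q f hfm hfdeg y hyF n hn hyn hfx1 hfPx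
  -- transfer to `E`
  have hder : jB ((f.map (s36th_betaB q)).derivative.eval xB) =
      jE ((g.map φ).derivative.eval x) := by
    rw [hf, Polynomial.map_map, derivative_map, derivative_map, eval_map, eval_map, hom_eval₂,
      hom_eval₂, hcomp2, hjBx]
  have hq0 : (q : LaurentSeries L) ≠ 0 := by
    have : (q : LaurentSeries L) = algebraMap L (LaurentSeries L) (q : L) := by
      rw [map_natCast]
    rw [this]
    intro h0
    have h1 : (q : L) = 0 := (algebraMap L (LaurentSeries L)).injective (by rw [h0, map_zero])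
    exact (NeZero.ne q) (Nat.cast_injective (R := L) (by rw [h1, Nat.cast_zero]))
  have hrel : jE ((g.map φ).derivative.eval x) * ((wB : ↥(gq_bddSubring ↥O L)) : LaurentSeries L) =
      (q : LaurentSeries L) := by
    have h1 := congrArg jB hwB
    rw [map_mul, hder, map_natCast] at h1
    exact h1
  have hne : (g.map φ).derivative.eval x ≠ 0 := by
    intro h0
    rw [h0, map_zero, zero_mul] at hrel
    exact hq0 hrel.symm
  have hjEne : jE ((g.map φ).derivative.eval x) ≠ 0 := by
    intro h0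
    rw [h0, zero_mul] at hrel
    exact hq0 hrel.symm
  set w : ↥E := (q : ↥E) / (g.map φ).derivative.eval x with hw
  have hwcoe : (w : LaurentSeries L) = ((wB : ↥(gq_bddSubring ↥O L)) : LaurentSeries L) := by
    have h1 : jE w = (q : LaurentSeries L) / jE ((g.map φ).derivative.eval x) := by
      rw [hw, map_div₀, map_natCast]
    change jE w = _
    rw [h1, div_eq_iff hjEne, mul_comm]
    exact hrel.symm
  have hwinv : ((w⁻¹ : ↥E) : LaurentSeries L) =
      (((wB⁻¹ : (↥(gq_bddSubring ↥O L))ˣ) : ↥(gq_bddSubring ↥O L)) : LaurentSeries L) := by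
    have h1 : ((wB : ↥(gq_bddSubring ↥O L)) : LaurentSeries L) *
        (((wB⁻¹ : (↥(gq_bddSubring ↥O L))ˣ) : ↥(gq_bddSubring ↥O L)) : LaurentSeries L) = 1 := by
      have := congrArg jB (Units.mul_inv wB)
      rwa [map_mul, map_one] at this
    rw [IntermediateField.coe_inv, hwcoe]
    exact inv_eq_of_mul_eq_one_right h1
  rw [hP]
  refine ⟨hgm.map φ, (natDegree_map_le).trans hgdeg, hPx, ?_, w, ?_, ?_, ?_⟩
  · -- `P(x(X^{q²})) = 0`
    have h1 := congrArg (fun z : ↥E => qExpand L q (jE z)) hg0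
    simp only [map_zero] at h1
    rw [hom_eval₂, hom_eval₂] at h1
    rw [Polynomial.map_map, eval_map]
    have h2 : (qExpand L q).comp (jE.comp (algebraMap ↥R' ↥E)) = (E.val.toRingHom).comp φ := by
      refine RingHom.ext fun z => ?_
      exact (hW (z : ↥E')).symm
    have h3 : qExpand L q (jE x₁) = qExpand L q (qExpand L q (lam' : LaurentSeries L)) := by
      show qExpand L q (x₁ : LaurentSeries L) = _
      rw [hx₁coe, hlam]
    rw [h2, h3] at h1
    exact h1
  · rw [gq_mem_valSubOf, hwcoe]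
    exact (wB : ↥(gq_bddSubring ↥O L)).2
  · rw [gq_mem_valSubOf, hwinv]
    exact ((wB⁻¹ : (↥(gq_bddSubring ↥O L))ˣ) : ↥(gq_bddSubring ↥O L)).2
  · rw [hw, mul_div_cancel₀ _ hne]

set_option synthInstance.maxHeartbeats 200000 in
set_option maxHeartbeats 1000000 in
/-- **[THETA]**: `N_{E2/E}(x - x(X^{q²}))` divides `q` in the Gauss valuation ring of `E`. -/
theorem s36th_main (E2 : IntermediateField L (LaurentSeries L)) (hle2 : E ≤ E2)
    (hrank2 : IntermediateField.relfinrank E E2 = q)
    (W : ↥E ≃+* ↥E) (hWW : ∀ x, W (W x) = x)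
    (hW : ∀ z : ↥E', ((W (IntermediateField.inclusion hle z) : ↥E) : LaurentSeries L) =
      qExpand L q (z : LaurentSeries L))
    (hrank : IntermediateField.relfinrank E' E = q + 1)
    (y : LaurentSeries O) (hyF : ssm_ga_FrobFixed q y) (n : ℤ) (hn : ¬ (q : ℤ) ∣ n)
    (hyn : residue O (y.coeff n) ≠ 0) (lam' : ↥E')
    (hlam : (lam' : LaurentSeries L) = coeffMap (algebraMap O L) y) (x₂ : ↥E2)
    (hx₂ : (x₂ : LaurentSeries L) = qExpand L q (qExpand L q (lam' : LaurentSeries L))) :
    letI := ssm_gi_algebra hle2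
    ∃ w : ↥E, w ∈ gq_valSubOf π hπ.ne_zero hπ.maximalIdeal_eq E hE ∧
      Algebra.norm ↥E (algebraMap ↥E ↥E2 (IntermediateField.inclusion hle lam') - x₂) * w =
        (q : ↥E) := by
  letI := ssm_gi_algebra hle2
  have hfr2 : Module.finrank ↥E ↥E2 = q := (ssm_gt_finrank_eq hle2).trans hrank2
  haveI : FiniteDimensional ↥E ↥E2 :=
    Module.finite_of_finrank_pos (by rw [hfr2]; exact hq.out.pos)
  obtain ⟨hPm, hPdeg, hPx, hPx2, w, hw, -, hPw⟩ :=
    s36th_tower O hπ q E' E hle hE W hWW hW hrank y hyF n hn hyn lam' hlam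
  set P := s36th_P E' E hle W lam' with hP
  set x : ↥E := IntermediateField.inclusion hle lam' with hx
  have hθ : aeval x₂ P = 0 := by
    apply E2.val.toRingHom.injective
    rw [map_zero, aeval_def, hom_eval₂]
    have h1 : (E2.val.toRingHom).comp (algebraMap ↥E ↥E2) = E.val.toRingHom :=
      RingHom.ext fun z => rfl
    rw [h1, ← eval_map]
    show (P.map E.val.toRingHom).eval (x₂ : LaurentSeries L) = 0
    rw [hx₂]
    exact hPx2
  rcases s36th_norm_cases hq.out hfr2 P hPm hPdeg x hPx x₂ hθ with h | ⟨θ', hθ', h⟩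
  · exact ⟨w, hw, by rw [h]; exact hPw⟩
  · have hθcoe : (θ' : LaurentSeries L) =
        qExpand L q (qExpand L q (coeffMap (algebraMap O L) y)) := by
      rw [← hlam, ← hx₂, hθ']
      rfl
    have hinv : (x - θ')⁻¹ ∈ gq_valSubOf π hπ.ne_zero hπ.maximalIdeal_eq E hE := by
      rw [gq_mem_valSubOf, IntermediateField.coe_inv]
      have h1 : ((x - θ' : ↥E) : LaurentSeries L) = coeffMap (algebraMap O L) y -
          qExpand L q (qExpand L q (coeffMap (algebraMap O L) y)) := by
        rw [← hθcoe, ← hlam]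
        rfl
      rw [h1]
      exact (s36th_sub_isUnit q y n hn hyn).2
    have hne : x - θ' ≠ 0 := by
      intro h0
      apply (s36th_sub_isUnit (K := L) q y n hn hyn).1
      rw [← hθcoe, ← hlam]
      exact congrArg (fun z : ↥E => (z : LaurentSeries L)) h0
    refine ⟨(q : ↥E) * ((x - θ')⁻¹) ^ q, ?_, ?_⟩
    · refine (gq_valSubOf π hπ.ne_zero hπ.maximalIdeal_eq E hE).mul_mem _ _ ?_ ?_
      · exact natCast_mem _ q
      · exact pow_mem hinv q
    · rw [h, inv_pow]
      field_simp

end Tower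

end Fermat.Agent.S36
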