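/-
Project S36 (Carayol), cell [M2] leaf [THETA] = [V3-INST](ii) (helper8): THE HESSE INSTANCE.

`E' = hs_E L h3 N' ≤ E₁ = hs_E L h3 (N' q) ≤ E₂ = hs_E L h3 (N' q q)` (`q` a prime, `3 ∤ q`,
`q ∤ N'`; in the application `q = 2`), `O ⊆ L` a DVR of residue characteristic `q` in which `3` is
a unit, `V₁` the Gauss valuation ring of `E₁`, coordinate `x = μ - 1`, `x₂ = x(X^{q²}) ∈ E₂`:

* `s36th_hes` : `N_{E₂/E₁}(x - x₂) · w = q` with `w ∈ V₁`;
* `s36th_hes_tower` : the polynomial form (`P'(x) · w = q`, `w` a unit of `V₁`).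

Prefix `s36th_`.
-/
import Mathlib
import Fermat.Agent.SS.Model.TwoPrimesHesW
import Fermat.Agent.S36.AL2.CoverHesse
import Fermat.Agent.S36.PEquiv2.DegE
import Fermat.Agent.S36.Theta.Main

set_option autoImplicit false
set_option linter.unusedSectionVars false
set_option linter.unusedVariables false
set_option linter.style.haveILetI false

noncomputable section

open ModularCurve IntermediateField IsLocalRing Polynomial
open Fermat.Agent.JT3 Fermat.Agent.SS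

namespace Fermat.Agent.S36

section Hesse

variable {L : Type*} [Field L] [CharZero L] [Algebra L (AlgebraicClosure ℚ)] (h3 : (3 : L) ≠ 0)
  (hF9 : ∀ (N : ℕ) [NeZero N], hs_E L h3 N = modularFunctionFieldFullC L (Nat.lcm 9 (3 * N)))
  (O : ValuationSubring L) [IsDiscreteValuationRing O] (h3O : IsUnit (3 : O)) {π : O}
  (hπ : Irreducible π)
variable (N' q : ℕ) [NeZero N'] [NeZero q] [hq : Fact q.Prime] [CharP (ResidueField O) q]
  (hq3 : ¬ 3 ∣ q) (hqN' : ¬ q ∣ N')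

include hF9 hq hq3 hqN' in
/-- `x(X^{q²}) ∈ E₂` for `x = μ - 1`. -/
theorem s36th_h_x2_mem :
    qExpand L q (qExpand L q ((hs_muE h3 N' - 1 : ↥(hs_E L h3 N')) : LaurentSeries L)) ∈
      hs_E L h3 (N' * q * q) := by
  have h : ((hs_muE h3 N' - 1 : ↥(hs_E L h3 N')) : LaurentSeries L) ∈ hs_E L h3 (N' * q * q) :=
    s36w_h_E_le0 L h3 hF9 N' q (Subtype.mem _)
  rw [← s36w_h_coe_WE_of_mem L h3 hF9 N' q hq.out hq3 hqN' (Subtype.mem _) h]
  exact Subtype.mem _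

/-- `x₂ = x(X^{q²})`, `x = μ - 1`, as an element of `E₂`. -/
def s36th_h_x2 : ↥(hs_E L h3 (N' * q * q)) :=
  ⟨qExpand L q (qExpand L q ((hs_muE h3 N' - 1 : ↥(hs_E L h3 N')) : LaurentSeries L)),
    s36th_h_x2_mem h3 hF9 N' q hq3 hqN'⟩

/-- **the theta-fact for the Hesse tower, polynomial form.** -/
theorem s36th_hes_tower :
    (s36th_P (hs_E L h3 N') (hs_E L h3 (N' * q)) (ssm_alh_E_le L h3 hF9 N' q)
      (ssm_glh_W h3 hF9 N' q hq3 hqN') (hs_muE h3 N' - 1)).Monic ∧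
    (s36th_P (hs_E L h3 N') (hs_E L h3 (N' * q)) (ssm_alh_E_le L h3 hF9 N' q)
      (ssm_glh_W h3 hF9 N' q hq3 hqN') (hs_muE h3 N' - 1)).natDegree ≤ q + 1 ∧
    (s36th_P (hs_E L h3 N') (hs_E L h3 (N' * q)) (ssm_alh_E_le L h3 hF9 N' q)
      (ssm_glh_W h3 hF9 N' q hq3 hqN') (hs_muE h3 N' - 1)).eval
        (IntermediateField.inclusion (ssm_alh_E_le L h3 hF9 N' q) (hs_muE h3 N' - 1)) = 0 ∧
    ((s36th_P (hs_E L h3 N') (hs_E L h3 (N' * q)) (ssm_alh_E_le L h3 hF9 N' q)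
      (ssm_glh_W h3 hF9 N' q hq3 hqN') (hs_muE h3 N' - 1)).map
        (hs_E L h3 (N' * q)).val.toRingHom).eval
        (qExpand L q (qExpand L q ((hs_muE h3 N' - 1 : ↥(hs_E L h3 N')) : LaurentSeries L))) =
      0 ∧
    ∃ w : ↥(hs_E L h3 (N' * q)),
      w ∈ gq_valSubOf π hπ.ne_zero hπ.maximalIdeal_eq (hs_E L h3 (N' * q))
        (hsa_E_le_quotField h3 O (N' * q) h3O) ∧
      w⁻¹ ∈ gq_valSubOf π hπ.ne_zero hπ.maximalIdeal_eq (hs_E L h3 (N' * q))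
        (hsa_E_le_quotField h3 O (N' * q) h3O) ∧
      (s36th_P (hs_E L h3 N') (hs_E L h3 (N' * q)) (ssm_alh_E_le L h3 hF9 N' q)
        (ssm_glh_W h3 hF9 N' q hq3 hqN') (hs_muE h3 N' - 1)).derivative.eval
          (IntermediateField.inclusion (ssm_alh_E_le L h3 hF9 N' q) (hs_muE h3 N' - 1)) * w =
        (q : ↥(hs_E L h3 (N' * q))) :=
  s36th_tower O hπ q (hs_E L h3 N') (hs_E L h3 (N' * q)) (ssm_alh_E_le L h3 hF9 N' q)
    (hsa_E_le_quotField h3 O (N' * q) h3O) (ssm_glh_W h3 hF9 N' q hq3 hqN')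
    (ssm_alh_WE_WE L h3 hF9 N' q hq.out hq3 hqN')
    (fun z => ssm_alh_coe_WE_of_mem L h3 hF9 N' q hq.out hq3 hqN' z.2 _)
    (ssm_alh_relfinrank_E L h3 hF9 N' q hq.out hq3 hqN') (hm_mu O h3O - 1)
    (ssm_glh_frobFixed O h3O q) (-1) (ssm_gh_not_dvd_neg_one q) (ssm_glh_coeff O h3O)
    (hs_muE h3 N' - 1) (ssm_glh_coe_x h3 O h3O N')

/-- **[THETA] for the Hesse tower**: `N_{E₂/E₁}(x - x(X^{q²}))`, `x = μ - 1`, divides `q` in the
Gauss valuation ring `V₁` of `E₁ = hs_E L h3 (N' q)`. -/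
theorem s36th_hes :
    letI := ssm_gi_algebra (s36w_h_E_le1 L h3 hF9 N' q)
    ∃ w : ↥(hs_E L h3 (N' * q)),
      w ∈ gq_valSubOf π hπ.ne_zero hπ.maximalIdeal_eq (hs_E L h3 (N' * q))
        (hsa_E_le_quotField h3 O (N' * q) h3O) ∧
      Algebra.norm ↥(hs_E L h3 (N' * q))
        (algebraMap ↥(hs_E L h3 (N' * q)) ↥(hs_E L h3 (N' * q * q))
          (IntermediateField.inclusion (ssm_alh_E_le L h3 hF9 N' q) (hs_muE h3 N' - 1)) -
          s36th_h_x2 h3 hF9 N' q hq3 hqN') * w = (q : ↥(hs_E L h3 (N' * q))) :=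
  s36th_main O hπ q (hs_E L h3 N') (hs_E L h3 (N' * q)) (ssm_alh_E_le L h3 hF9 N' q)
    (hsa_E_le_quotField h3 O (N' * q) h3O) (hs_E L h3 (N' * q * q))
    (s36w_h_E_le1 L h3 hF9 N' q)
    (s36pe_relfinrank_EH L h3 (N' * q) q hq.out hq3 (Dvd.intro_left N' rfl))
    (ssm_glh_W h3 hF9 N' q hq3 hqN')
    (ssm_alh_WE_WE L h3 hF9 N' q hq.out hq3 hqN')
    (fun z => ssm_alh_coe_WE_of_mem L h3 hF9 N' q hq.out hq3 hqN' z.2 _)
    (ssm_alh_relfinrank_E L h3 hF9 N' q hq.out hq3 hqN') (hm_mu O h3O - 1)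
    (ssm_glh_frobFixed O h3O q) (-1) (ssm_gh_not_dvd_neg_one q) (ssm_glh_coeff O h3O)
    (hs_muE h3 N' - 1) (ssm_glh_coe_x h3 O h3O N') (s36th_h_x2 h3 hF9 N' q hq3 hqN') rfl

end Hesse

end Fermat.Agent.S36
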