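/-
Project S36 (Carayol), cell [M2] leaf [THETA] = [V3-INST](ii) (helper8): THE LEGENDRE INSTANCE.

`E' = lg_E L N' ≤ E₁ = lg_E L (N' q) ≤ E₂ = lg_E L (N' q q)` (`q` an odd prime, `q ∤ N'`, `O ⊆ L` a
DVR of residue characteristic `q`), `V₁ = ssm_gl_V1` the Gauss valuation ring of `E₁`,
`λ₂ = λ(X^{q²}) ∈ E₂`:

* `s36th_leg` : `N_{E₂/E₁}(λ - λ₂) · w = q` with `w ∈ V₁`;
* `s36th_leg_tower` : the polynomial form (`P'(λ) · w = q`, `w` a unit of `V₁`).

Prefix `s36th_`.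
-/
import Mathlib
import Fermat.Agent.SS.Model.TwoPrimesLeg
import Fermat.Agent.S36.AL2.Cover
import Fermat.Agent.S36.PEquiv2.DegE
import Fermat.Agent.S36.Theta.Main

set_option autoImplicit false
set_option linter.unusedSectionVars false
set_option linter.unusedVariables false
set_option linter.style.haveILetI false

noncomputable section

open ModularCurve IntermediateField IsLocalRing Polynomial
open Fermat.Agent.JT3 Fermat.Agent.SS

namespace Fermat.Agent.S36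

section Legendre

variable {L : Type*} [Field L] [CharZero L] [Algebra L (AlgebraicClosure ℚ)]
  (O : ValuationSubring L) [IsDiscreteValuationRing O] {π : O} (hπ : Irreducible π)
variable (N' q : ℕ) [NeZero N'] [NeZero q] [hq : Fact q.Prime] [CharP (ResidueField O) q]
  (hq2 : ¬ 2 ∣ q) (hqN' : ¬ q ∣ N')

include hq hq2 hqN' in
variable (L) in
/-- `λ(X^{q²}) ∈ E₂`. -/
theorem s36th_lam2_mem : qExpand L q (qExpand L q (lg_lam L)) ∈ lg_E L (N' * q * q) := by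
  have h : lg_lam L ∈ lg_E L (N' * q * q) := s36w_E_le0 L N' q (lg_lam_mem_E L N')
  rw [← s36w_coe_WE_lam L N' q hq.out hq2 hqN' h]
  exact Subtype.mem _

variable (L) in
/-- `λ₂ = λ(X^{q²})` as an element of `E₂`. -/
def s36th_lam2 : ↥(lg_E L (N' * q * q)) :=
  ⟨qExpand L q (qExpand L q (lg_lam L)), s36th_lam2_mem L N' q hq2 hqN'⟩

/-- **the theta-fact for the Legendre tower, polynomial form.** -/
theorem s36th_leg_tower :
    (s36th_P (lg_E L N') (lg_E L (N' * q)) (ssm_al_E_le L N' q) (ssm_gl_W L N' q hq2 hqN')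
      (lg_lamE N')).Monic ∧
    (s36th_P (lg_E L N') (lg_E L (N' * q)) (ssm_al_E_le L N' q) (ssm_gl_W L N' q hq2 hqN')
      (lg_lamE N')).natDegree ≤ q + 1 ∧
    (s36th_P (lg_E L N') (lg_E L (N' * q)) (ssm_al_E_le L N' q) (ssm_gl_W L N' q hq2 hqN')
      (lg_lamE N')).eval (lg_lamE (N' * q)) = 0 ∧
    ((s36th_P (lg_E L N') (lg_E L (N' * q)) (ssm_al_E_le L N' q) (ssm_gl_W L N' q hq2 hqN')
      (lg_lamE N')).map (lg_E L (N' * q)).val.toRingHom).eval
        (qExpand L q (qExpand L q (lg_lam L))) = 0 ∧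
    ∃ w : ↥(lg_E L (N' * q)), w ∈ ssm_gl_V1 O hπ N' q ∧ w⁻¹ ∈ ssm_gl_V1 O hπ N' q ∧
      (s36th_P (lg_E L N') (lg_E L (N' * q)) (ssm_al_E_le L N' q) (ssm_gl_W L N' q hq2 hqN')
        (lg_lamE N')).derivative.eval (lg_lamE (N' * q)) * w = (q : ↥(lg_E L (N' * q))) :=
  s36th_tower O hπ q (lg_E L N') (lg_E L (N' * q)) (ssm_al_E_le L N' q)
    (ssm_ga_E_le_quotField O (N' * q)) (ssm_gl_W L N' q hq2 hqN')
    (ssm_al_WE_WE L N' q hq.out hq2 hqN')
    (fun z => ssm_al_coe_WE_of_mem L N' q hq.out hq2 hqN' z.2 _)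
    (ssm_al_relfinrank_E L N' q hq.out hq2 hqN') (hm_lam O) (ssm_ga_lam_frobFixed O q) 1
    (ssm_gl_not_dvd_one q) (ssm_ga_lam_coeff_one O (ssm_gl_two_ne_zero O q hq2)) (lg_lamE N')
    (hm_coeffMap_lam _).symm

/-- **[THETA] for the Legendre tower**: `N_{E₂/E₁}(λ - λ(X^{q²}))` divides `q` in the Gauss
valuation ring `V₁` of `E₁ = lg_E L (N' q)`. -/
theorem s36th_leg :
    letI := ssm_gi_algebra (s36w_E_le1 L N' q)
    ∃ w : ↥(lg_E L (N' * q)), w ∈ ssm_gl_V1 O hπ N' q ∧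
      Algebra.norm ↥(lg_E L (N' * q))
        (algebraMap ↥(lg_E L (N' * q)) ↥(lg_E L (N' * q * q)) (lg_lamE (N' * q)) -
          s36th_lam2 L N' q hq2 hqN') * w = (q : ↥(lg_E L (N' * q))) :=
  s36th_main O hπ q (lg_E L N') (lg_E L (N' * q)) (ssm_al_E_le L N' q)
    (ssm_ga_E_le_quotField O (N' * q)) (lg_E L (N' * q * q)) (s36w_E_le1 L N' q)
    (s36pe_relfinrank_E L (N' * q) q hq.out hq2 (Dvd.intro_left N' rfl))
    (ssm_gl_W L N' q hq2 hqN')
    (ssm_al_WE_WE L N' q hq.out hq2 hqN')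
    (fun z => ssm_al_coe_WE_of_mem L N' q hq.out hq2 hqN' z.2 _)
    (ssm_al_relfinrank_E L N' q hq.out hq2 hqN') (hm_lam O) (ssm_ga_lam_frobFixed O q) 1
    (ssm_gl_not_dvd_one q) (ssm_ga_lam_coeff_one O (ssm_gl_two_ne_zero O q hq2)) (lg_lamE N')
    (hm_coeffMap_lam _).symm (s36th_lam2 L N' q hq2 hqN') rfl

end Legendre

end Fermat.Agent.S36
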