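/-
Project S36 (Carayol), cell [M2] leaf [THETA] = [V3-INST](ii) (helper8): `q ∉ 𝔪(V)^2` for the Gauss
valuation ring `V` of a field `E ≤ Quot(O((X)))` over an UNRAMIFIED base `O` (`q = π · unit`), so
that `s36th_intNorm_notMem` (Theta/Norm.lean) + `s36th_leg` / `s36th_hes` give the hypothesis
`hN : Algebra.intNorm R S z ∉ p ^ 2` of `s36v_main` (S36/Val3.lean).  Prefix `s36th_`.
-/
import Mathlib
import Fermat.Agent.JT3.Bridge.GaussVal

set_option autoImplicit false
set_option linter.unusedSectionVars false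

noncomputable section

open ModularCurve IsLocalRing

namespace Fermat.Agent.S36

open Fermat.Agent.JT3

section Unram

variable {O : Type*} [CommRing O] [IsDomain O] [IsLocalRing O] [WfDvdMonoid O]
variable {K : Type*} [Field K] [Algebra O K] [IsFractionRing O K]
variable (π : O) (hπ0 : π ≠ 0) (hπ : maximalIdeal O = Ideal.span {π})
  (E : IntermediateField K (LaurentSeries K)) (hE : E ≤ gq_quotField O K)

/-- constants from `O` lie in the Gauss ring. -/
theorem s36th_const_mem (z : O) :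
    algebraMap K ↥E (algebraMap O K z) ∈ gq_valSubOf π hπ0 hπ E hE := by
  change gq_IsBdd O K (algebraMap K (LaurentSeries K) (algebraMap O K z))
  rw [← gq_coeffMap_algebraMap]
  exact gq_isBdd_iota _

/-- **`q ∉ 𝔪(V)^2` when `q = π · unit` in `O`.** -/
theorem s36th_natCast_notMem_sq (q : ℕ) (u : O) (hu : IsUnit u) (hqu : (q : O) = π * u) :
    ((q : ℕ) : ↥(gq_valSubOf π hπ0 hπ E hE)) ∉ maximalIdeal ↥(gq_valSubOf π hπ0 hπ E hE) ^ 2 := by
  rw [gq_maximalIdeal_eq, Ideal.span_singleton_pow, Ideal.mem_span_singleton]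
  rintro ⟨c, hc⟩
  obtain ⟨v, hv⟩ := hu.exists_right_inv
  set πE : ↥E := algebraMap K ↥E (algebraMap O K π) with hπE
  set uE : ↥E := algebraMap K ↥E (algebraMap O K u) with huE
  set vE : ↥E := algebraMap K ↥E (algebraMap O K v) with hvE
  have hπE0 : πE ≠ 0 := by
    intro h0
    apply hπ0
    apply IsFractionRing.injective O K
    apply (algebraMap K ↥E).injective
    rw [map_zero, map_zero]
    exact h0
  have hqE : ((q : ℕ) : ↥E) = πE * uE := by
    rw [hπE, huE, ← map_mul, ← map_mul, ← hqu, map_natCast, map_natCast]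
  have hcE : ((q : ℕ) : ↥E) = πE ^ 2 * (c : ↥E) := by
    have := congrArg (fun z : ↥(gq_valSubOf π hπ0 hπ E hE) => (z : ↥E)) hc
    have h1 : ((gq_unif π hπ0 hπ E hE : ↥(gq_valSubOf π hπ0 hπ E hE)) : ↥E) = πE := rfl
    rw [← h1]
    simpa using this
  have huc : uE = πE * (c : ↥E) := by
    have h1 : πE * uE = πE * (πE * (c : ↥E)) := by
      rw [← hqE, hcE]
      ring
    exact mul_left_cancel₀ hπE0 h1
  have huv : uE * vE = 1 := by
    rw [huE, hvE, ← map_mul, ← map_mul, hv, map_one, map_one]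
  -- `u` is a unit of the Gauss ring lying in its maximal ideal
  let U : ↥(gq_valSubOf π hπ0 hπ E hE) := ⟨uE, s36th_const_mem π hπ0 hπ E hE u⟩
  let V : ↥(gq_valSubOf π hπ0 hπ E hE) := ⟨vE, s36th_const_mem π hπ0 hπ E hE v⟩
  have hUV : U * V = 1 := Subtype.ext huv
  have hUmem : U ∈ maximalIdeal ↥(gq_valSubOf π hπ0 hπ E hE) := by
    rw [gq_maximalIdeal_eq, Ideal.mem_span_singleton]
    exact ⟨c, Subtype.ext huc⟩
  exact (mem_maximalIdeal _).1 hUmem (IsUnit.of_mul_eq_one V hUV)

end Unram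

end Fermat.Agent.S36
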