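/-
Project S36 (Carayol), cell [M2] leaf [THETA] = [V3-INST](ii) (helper8): THE HYPOTHESIS `hN` OF
`s36v_main` IN CONSUMER FORM, for both towers, over an UNRAMIFIED base (`q = π · unit` in `O`).

With `R := ↥V₁` (the Gauss valuation ring of `E₁`, a DVR with fraction field `E₁`), `z = λ₂ - λ`
(resp. `x₂ - x`, `x = μ - 1`):

  `∃ c w : R, c ∉ 𝔪_R ^ 2 ∧ N_{E₂/E₁}(z) * w = c`   (`s36th_leg_hN`, `s36th_hes_hN`)

which gives `Algebra.intNorm R S z' ∉ 𝔪_R ^ 2` for `S = integralClosure R E₂` by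
`s36th_intNorm_notMem` (Theta/Norm.lean) in any AKLB setup (checked in the `ssm_tw_` vocabulary:
after `obtain ⟨hD, hF, hfin, hfree, hrk⟩ := ssm_tw_inst K R` + the `haveI`s,
`s36th_intNorm_notMem (K := K) (L := E) (maximalIdeal R) c w hc z h` typechecks).

Prefix `s36th_`.
-/
import Mathlib
import Fermat.Agent.S36.Theta.Leg
import Fermat.Agent.S36.Theta.Hes
import Fermat.Agent.S36.Theta.Unram

set_option autoImplicit false
set_option linter.unusedSectionVars false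
set_option linter.unusedVariables false
set_option linter.style.haveILetI false

noncomputable section

open ModularCurve IntermediateField IsLocalRing Polynomial
open Fermat.Agent.JT3 Fermat.Agent.SS

namespace Fermat.Agent.S36

section Neg

variable {K E : Type*} [Field K] [Field E] [Algebra K E]

/-- `N(-a) = (-1)^[E:K] N(a)`. -/
theorem s36th_norm_neg (a : E) :
    Algebra.norm K (-a) = (-1) ^ Module.finrank K E * Algebra.norm K a := by
  have h : -a = algebraMap K E (-1) * a := by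
    rw [map_neg, map_one, neg_one_mul]
  rw [h, map_mul, Algebra.norm_algebraMap]

theorem s36th_neg_one_pow_sq (n : ℕ) : ((-1 : K) ^ n) ^ 2 = 1 := by
  rw [← pow_mul, mul_comm, pow_mul]
  simp

end Neg

section Legendre

variable {L : Type*} [Field L] [CharZero L] [Algebra L (AlgebraicClosure ℚ)]
  (O : ValuationSubring L) [IsDiscreteValuationRing O] {π : O} (hπ : Irreducible π)
variable (N' q : ℕ) [NeZero N'] [NeZero q] [hq : Fact q.Prime] [CharP (ResidueField O) q]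
  (hq2 : ¬ 2 ∣ q) (hqN' : ¬ q ∣ N')

/-- **`hN` for the Legendre tower**, `z = λ - λ₂`. -/
theorem s36th_leg_hN' (u : ↥O) (hu : IsUnit u) (hqu : ((q : ℕ) : ↥O) = π * u) :
    letI := ssm_gi_algebra (s36w_E_le1 L N' q)
    ∃ c w : ↥(ssm_gl_V1 O hπ N' q), c ∉ maximalIdeal ↥(ssm_gl_V1 O hπ N' q) ^ 2 ∧
      Algebra.norm ↥(lg_E L (N' * q))
        (algebraMap ↥(lg_E L (N' * q)) ↥(lg_E L (N' * q * q)) (lg_lamE (N' * q)) -
          s36th_lam2 L N' q hq2 hqN') * (w : ↥(lg_E L (N' * q))) = (c : ↥(lg_E L (N' * q))) := by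
  letI := ssm_gi_algebra (s36w_E_le1 L N' q)
  obtain ⟨w, hw, h⟩ := s36th_leg O hπ N' q hq2 hqN'
  refine ⟨((q : ℕ) : ↥(ssm_gl_V1 O hπ N' q)), ⟨w, hw⟩,
    s36th_natCast_notMem_sq π hπ.ne_zero hπ.maximalIdeal_eq _ _ q u hu hqu, ?_⟩
  rw [h]
  simp

/-- **`hN` for the Legendre tower**, `z = λ₂ - λ` (the spelling of `s36i_third_ideal`). -/
theorem s36th_leg_hN (u : ↥O) (hu : IsUnit u) (hqu : ((q : ℕ) : ↥O) = π * u) :
    letI := ssm_gi_algebra (s36w_E_le1 L N' q)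
    ∃ c w : ↥(ssm_gl_V1 O hπ N' q), c ∉ maximalIdeal ↥(ssm_gl_V1 O hπ N' q) ^ 2 ∧
      Algebra.norm ↥(lg_E L (N' * q))
        (s36th_lam2 L N' q hq2 hqN' -
          algebraMap ↥(lg_E L (N' * q)) ↥(lg_E L (N' * q * q)) (lg_lamE (N' * q))) *
        (w : ↥(lg_E L (N' * q))) = (c : ↥(lg_E L (N' * q))) := by
  letI := ssm_gi_algebra (s36w_E_le1 L N' q)
  obtain ⟨c, w, hc, h⟩ := s36th_leg_hN' O hπ N' q hq2 hqN' u hu hqu
  refine ⟨c, (-1) ^ Module.finrank ↥(lg_E L (N' * q)) ↥(lg_E L (N' * q * q)) * w, hc, ?_⟩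
  rw [← neg_sub, s36th_norm_neg, ← h]
  push_cast
  have h1 : ((-1 : ↥(lg_E L (N' * q))) ^
      Module.finrank ↥(lg_E L (N' * q)) ↥(lg_E L (N' * q * q))) ^ 2 = 1 :=
    s36th_neg_one_pow_sq _
  linear_combination (Algebra.norm ↥(lg_E L (N' * q))
    (algebraMap ↥(lg_E L (N' * q)) ↥(lg_E L (N' * q * q)) (lg_lamE (N' * q)) -
      s36th_lam2 L N' q hq2 hqN') * (w : ↥(lg_E L (N' * q)))) * h1

end Legendre

section Hesse

variable {L : Type*} [Field L] [CharZero L] [Algebra L (AlgebraicClosure ℚ)] (h3 : (3 : L) ≠ 0)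
  (hF9 : ∀ (N : ℕ) [NeZero N], hs_E L h3 N = modularFunctionFieldFullC L (Nat.lcm 9 (3 * N)))
  (O : ValuationSubring L) [IsDiscreteValuationRing O] (h3O : IsUnit (3 : O)) {π : O}
  (hπ : Irreducible π)
variable (N' q : ℕ) [NeZero N'] [NeZero q] [hq : Fact q.Prime] [CharP (ResidueField O) q]
  (hq3 : ¬ 3 ∣ q) (hqN' : ¬ q ∣ N')

/-- **`hN` for the Hesse tower**, `z = x - x₂`, `x = μ - 1`. -/
theorem s36th_hes_hN' (u : ↥O) (hu : IsUnit u) (hqu : ((q : ℕ) : ↥O) = π * u) :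
    letI := ssm_gi_algebra (s36w_h_E_le1 L h3 hF9 N' q)
    ∃ c w : ↥(gq_valSubOf π hπ.ne_zero hπ.maximalIdeal_eq (hs_E L h3 (N' * q))
        (hsa_E_le_quotField h3 O (N' * q) h3O)),
      c ∉ maximalIdeal ↥(gq_valSubOf π hπ.ne_zero hπ.maximalIdeal_eq (hs_E L h3 (N' * q))
        (hsa_E_le_quotField h3 O (N' * q) h3O)) ^ 2 ∧
      Algebra.norm ↥(hs_E L h3 (N' * q))
        (algebraMap ↥(hs_E L h3 (N' * q)) ↥(hs_E L h3 (N' * q * q))
          (IntermediateField.inclusion (ssm_alh_E_le L h3 hF9 N' q) (hs_muE h3 N' - 1)) -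
          s36th_h_x2 h3 hF9 N' q hq3 hqN') * (w : ↥(hs_E L h3 (N' * q))) =
        (c : ↥(hs_E L h3 (N' * q))) := by
  letI := ssm_gi_algebra (s36w_h_E_le1 L h3 hF9 N' q)
  obtain ⟨w, hw, h⟩ := s36th_hes h3 hF9 O h3O hπ N' q hq3 hqN'
  refine ⟨((q : ℕ) : ↥(gq_valSubOf π hπ.ne_zero hπ.maximalIdeal_eq (hs_E L h3 (N' * q))
      (hsa_E_le_quotField h3 O (N' * q) h3O))), ⟨w, hw⟩,
    s36th_natCast_notMem_sq π hπ.ne_zero hπ.maximalIdeal_eq _ _ q u hu hqu, ?_⟩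
  rw [h]
  simp

/-- **`hN` for the Hesse tower**, `z = x₂ - x`. -/
theorem s36th_hes_hN (u : ↥O) (hu : IsUnit u) (hqu : ((q : ℕ) : ↥O) = π * u) :
    letI := ssm_gi_algebra (s36w_h_E_le1 L h3 hF9 N' q)
    ∃ c w : ↥(gq_valSubOf π hπ.ne_zero hπ.maximalIdeal_eq (hs_E L h3 (N' * q))
        (hsa_E_le_quotField h3 O (N' * q) h3O)),
      c ∉ maximalIdeal ↥(gq_valSubOf π hπ.ne_zero hπ.maximalIdeal_eq (hs_E L h3 (N' * q))
        (hsa_E_le_quotField h3 O (N' * q) h3O)) ^ 2 ∧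
      Algebra.norm ↥(hs_E L h3 (N' * q))
        (s36th_h_x2 h3 hF9 N' q hq3 hqN' -
          algebraMap ↥(hs_E L h3 (N' * q)) ↥(hs_E L h3 (N' * q * q))
            (IntermediateField.inclusion (ssm_alh_E_le L h3 hF9 N' q) (hs_muE h3 N' - 1))) *
        (w : ↥(hs_E L h3 (N' * q))) = (c : ↥(hs_E L h3 (N' * q))) := by
  letI := ssm_gi_algebra (s36w_h_E_le1 L h3 hF9 N' q)
  obtain ⟨c, w, hc, h⟩ := s36th_hes_hN' h3 hF9 O h3O hπ N' q hq3 hqN' u hu hqu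
  refine ⟨c, (-1) ^ Module.finrank ↥(hs_E L h3 (N' * q)) ↥(hs_E L h3 (N' * q * q)) * w, hc, ?_⟩
  rw [← neg_sub, s36th_norm_neg, ← h]
  push_cast
  have h1 : ((-1 : ↥(hs_E L h3 (N' * q))) ^
      Module.finrank ↥(hs_E L h3 (N' * q)) ↥(hs_E L h3 (N' * q * q))) ^ 2 = 1 :=
    s36th_neg_one_pow_sq _
  linear_combination (Algebra.norm ↥(hs_E L h3 (N' * q))
    (algebraMap ↥(hs_E L h3 (N' * q)) ↥(hs_E L h3 (N' * q * q))
      (IntermediateField.inclusion (ssm_alh_E_le L h3 hF9 N' q) (hs_muE h3 N' - 1)) -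
      s36th_h_x2 h3 hF9 N' q hq3 hqN') * (w : ↥(hs_E L h3 (N' * q)))) * h1

end Hesse

end Fermat.Agent.S36
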